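import Fermat.Agent.S55.W.Arith
import Fermat.Agent.S55.P.Places

/-!
# S55, chapter E: roots of unity are `S`-units; the `p`-torsion of `Ω_q^×` comes from `E`
-/

set_option autoImplicit false
set_option linter.unusedSectionVars false
set_option linter.unusedVariables false
set_option linter.style.haveILetI false

namespace Fermat.Agent.S55Lib

noncomputable section

open groupCohomology ExtCitation

variable {p : ℕ} [Fact p.Prime] (S : Finset Nat.Primes)

lemma E_exists_prim (p : ℕ) [Fact p.Prime] : ∃ ζ : Qbar, IsPrimitiveRoot ζ p := by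
  haveI : NeZero p := ⟨(Fact.out : p.Prime).ne_zero⟩
  haveI : NeZero (p : Qbar) := ⟨by exact_mod_cast (Fact.out : p.Prime).ne_zero⟩
  exact HasEnoughRootsOfUnity.exists_primitiveRoot Qbar p

lemma E_norm_eq_one_of_pow {q : Nat.Primes} {n : ℕ} (hn : n ≠ 0) {y : Om q} (h : ‖y ^ n‖ = 1) :
    ‖y‖ = 1 := by
  rw [norm_pow] at h
  exact (pow_eq_one_iff_of_nonneg (norm_nonneg y) hn).1 h

/-- `p`-th roots of unity are `S`-units of `ℚ_S` -/
lemma E_mu_mem_ES (hpS : pPrime p ∈ S) (z : Qbarˣ) (hz : z ^ p = 1) : z ∈ ES S := by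
  have hz' : (z : Qbar) ^ p = 1 := by
    rw [← Units.val_pow_eq_pow_val, hz, Units.val_one]
  refine ⟨?_, fun q hq g => ?_⟩
  · obtain ⟨U, hU, hfix⟩ := PL_exists_level_mu S p hpS
    exact ⟨U, hU, fun s hs => Units.ext (hfix s hs _ hz')⟩
  · apply E_norm_eq_one_of_pow (Fact.out : p.Prime).ne_zero
    rw [← map_pow, ← map_pow, hz', map_one, map_one, norm_one]

theorem E_Btor (hpS : pPrime p ∈ S) (q : Nat.Primes) (b : Additive (Om q)ˣ) (hb : p • b = 0) :
    ∃ e : EA S, lamq S q e = b := by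
  haveI : NeZero p := ⟨(Fact.out : p.Prime).ne_zero⟩
  obtain ⟨ζ, hζ⟩ := E_exists_prim p
  have hζ' : IsPrimitiveRoot (iq q ζ) p := hζ.map_of_injective (iq q).toRingHom.injective
  have hu : ((Additive.toMul b : (Om q)ˣ) : Om q) ^ p = 1 := by
    have h1 : (Additive.toMul b : (Om q)ˣ) ^ p = 1 := hb
    rw [← Units.val_pow_eq_pow_val, h1, Units.val_one]
  obtain ⟨i, -, hi⟩ := hζ'.eq_pow_of_pow_eq_one hu
  have hζ0 : ζ ≠ 0 := hζ.ne_zero (Fact.out : p.Prime).ne_zero
  let z : Qbarˣ := Units.mk0 ζ hζ0 ^ i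
  have hz : z ^ p = 1 := by
    apply Units.ext
    show ((Units.mk0 ζ hζ0 ^ i) ^ p : Qbarˣ).val = 1
    rw [Units.val_pow_eq_pow_val, Units.val_pow_eq_pow_val, Units.val_mk0, ← pow_mul, mul_comm,
      pow_mul, hζ.pow_eq_one, one_pow]
  refine ⟨Additive.ofMul ⟨z, E_mu_mem_ES S hpS z hz⟩, ?_⟩
  apply congrArg Additive.ofMul (a₂ := Additive.toMul b)
  apply Units.ext
  show iq q ((Units.mk0 ζ hζ0 ^ i : Qbarˣ) : Qbar) = _
  rw [Units.val_pow_eq_pow_val, Units.val_mk0, map_pow, hi]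

end

end Fermat.Agent.S55Lib
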