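import Fermat.Agent.S55.E.Btor

/-!
# S55, chapter E: the `S`-units of `ℚ_S` are `p`-divisible (`p ∈ S`)
-/

set_option autoImplicit false
set_option linter.unusedSectionVars false
set_option linter.unusedVariables false
set_option linter.style.haveILetI false

namespace Fermat.Agent.S55Lib

noncomputable section

open groupCohomology ExtCitation Polynomial

variable {p : ℕ} [Fact p.Prime] (S : Finset Nat.Primes)

lemma E_div_finite (p : ℕ) [Fact p.Prime] (a : Qbar) :
    {c : Qbar | ∃ g : GQ, c ^ p = g a}.Finite := by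
  haveI : Algebra.IsAlgebraic ℚ Qbar := AlgebraicClosure.isAlgebraic ℚ
  have hp : 0 < p := (Fact.out : p.Prime).pos
  have hint : IsIntegral ℚ a := Algebra.IsIntegral.isIntegral a
  have hR : {r : Qbar | ∃ g : GQ, r = g a}.Finite := by
    refine ((minpoly ℚ a).rootSet_finite Qbar).subset ?_
    rintro _ ⟨g, rfl⟩
    rw [mem_rootSet]
    refine ⟨minpoly.ne_zero hint, ?_⟩
    have h1 := aeval_algHom_apply (g : Qbar →ₐ[ℚ] Qbar) a (minpoly ℚ a)
    rw [minpoly.aeval, map_zero] at h1
    exact h1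
  have := Set.Finite.preimage' (f := fun c : Qbar => c ^ p) hR (fun r _ => by
    refine (nthRootsFinset p r).finite_toSet.subset ?_
    intro z hz
    exact (mem_nthRootsFinset hp _).2 hz)
  exact this

/-- `E` is `p`-divisible (`p ∈ S`). -/
theorem E_div (hpS : pPrime p ∈ S) (e : EA S) : ∃ e' : EA S, p • e' = e := by
  have hp : 0 < p := (Fact.out : p.Prime).pos
  obtain ⟨⟨U, hU, hfix⟩, hn⟩ := (Additive.toMul e : ES S).2
  set a : Qbarˣ := ((Additive.toMul e : ES S) : Qbarˣ) with ha
  obtain ⟨b, hb⟩ := IsAlgClosed.exists_pow_nat_eq (a : Qbar) hp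
  have hb0 : b ≠ 0 := by
    rintro rfl
    rw [zero_pow hp.ne'] at hb
    exact a.ne_zero hb.symm
  have hUn := (levS S).normal U hU
  obtain ⟨F, hfd, hst, hur, rfl⟩ := hU
  have hlev := PL_mem_levS_of_finite S {c : Qbar | ∃ g : GQ, c ^ p = g a} (E_div_finite p a)
    (by
      rintro σ x ⟨g, hg⟩
      exact ⟨σ * g, by rw [← map_pow, hg]; rfl⟩)
    (by
      rintro q hq A hA γ hγ x ⟨g, hg⟩
      refine PL_root_fixed q.2 (PL_not_dvd S p hpS q hq) A hA x ?_ ?_ γ hγ
      · rw [hg]
        exact PL_isU_of_norm q (g a) (fun g' => hn q hq (g' * g)) A hA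
      · intro γ' hγ'
        rw [hg]
        have h1 : γ' ∈ F.fixingSubgroup := hur.2 q hq A hA hγ'
        have h2 : g⁻¹ * γ' * g ∈ F.fixingSubgroup := by
          have := hUn.conj_mem γ' h1 g⁻¹
          simpa using this
        have h3 : g⁻¹ (γ' (g (a : Qbar))) = a := congrArg Units.val (hfix _ h2)
        have h4 := congrArg g h3
        rwa [show g (g⁻¹ (γ' (g (a : Qbar)))) = γ' (g (a : Qbar)) from g.apply_symm_apply _] at h4)
  have hmem : Units.mk0 b hb0 ∈ ES S := by
    refine ⟨⟨_, hlev, fun s hs => ?_⟩, fun q hq g => ?_⟩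
    · rw [IntermediateField.mem_fixingSubgroup_iff] at hs
      exact Units.ext (hs b (IntermediateField.subset_adjoin ℚ _ ⟨1, by rw [hb]; rfl⟩))
    · apply E_norm_eq_one_of_pow hp.ne'
      rw [Units.val_mk0, ← map_pow, ← map_pow, hb]
      exact hn q hq g
  refine ⟨Additive.ofMul ⟨Units.mk0 b hb0, hmem⟩, ?_⟩
  apply congrArg Additive.ofMul (a₂ := Additive.toMul e)
  apply Subtype.ext
  apply Units.ext
  show ((Units.mk0 b hb0 ^ p : Qbarˣ) : Qbar) = a
  rw [Units.val_pow_eq_pow_val, Units.val_mk0, hb]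

end

end Fermat.Agent.S55Lib
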