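import Fermat.Agent.S55.W.Arith
import Fermat.Agent.S55.G.LocFix

/-!
# S55, chapter E: level Hilbert 90 for `Ω_q^×`
-/

set_option autoImplicit false
set_option linter.unusedSectionVars false
set_option linter.unusedVariables false
set_option linter.style.haveILetI false

namespace Fermat.Agent.S55Lib

noncomputable section

open groupCohomology

/-- Hilbert 90 for cocycles on a subgroup `U` of `Aut(Ω/k)` that are trivial on the fixing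
subgroup (of finite index) of an intermediate field. -/
theorem E2_hilbert90 {k Ω : Type} [Field k] [Field Ω] [Algebra k Ω] (U : Subgroup (Ω ≃ₐ[k] Ω))
    (L : IntermediateField k Ω) (hUL : L.fixingSubgroup ≤ U) [L.fixingSubgroup.FiniteIndex]
    (a : (Ω ≃ₐ[k] Ω) → Ωˣ)
    (hcoc : ∀ s ∈ U, ∀ t ∈ U, a (s * t) = a s * s • a t)
    (htriv : ∀ t ∈ L.fixingSubgroup, a t = 1) :
    ∃ b : Ωˣ, ∀ s ∈ U, a s = b / s • b := by
  classical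
  set V : Subgroup U := L.fixingSubgroup.subgroupOf U with hV
  haveI : V.FiniteIndex := inferInstance
  haveI : Finite (U ⧸ V) := Subgroup.finite_quotient_of_finiteIndex
  haveI : Fintype (U ⧸ V) := Fintype.ofFinite _
  -- the summands
  let Φ : Ω → U → Ω := fun θ u => ((a (u : Ω ≃ₐ[k] Ω) : Ωˣ) : Ω) * (u : Ω ≃ₐ[k] Ω) θ
  have hΦV : ∀ θ ∈ L, ∀ (u : U) (v : V), Φ θ (u * (v : U)) = Φ θ u := by
    intro θ hθ u v
    have hv : ((v : U) : Ω ≃ₐ[k] Ω) ∈ L.fixingSubgroup := Subgroup.mem_subgroupOf.mp v.2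
    have h1 : a ((u : Ω ≃ₐ[k] Ω) * ((v : U) : Ω ≃ₐ[k] Ω)) = a (u : Ω ≃ₐ[k] Ω) := by
      rw [hcoc _ u.2 _ (v : U).2, htriv _ hv, smul_one, mul_one]
    have h2 : ((v : U) : Ω ≃ₐ[k] Ω) θ = θ :=
      (IntermediateField.mem_fixingSubgroup_iff _ _).mp hv θ hθ
    show ((a ((u : Ω ≃ₐ[k] Ω) * ((v : U) : Ω ≃ₐ[k] Ω)) : Ωˣ) : Ω) *
      (u : Ω ≃ₐ[k] Ω) (((v : U) : Ω ≃ₐ[k] Ω) θ) = _
    rw [h1, h2]
  let Ψ : Ω → (U ⧸ V) → Ω := fun θ c => Φ θ (Quotient.out c)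
  have hΨ : ∀ θ ∈ L, ∀ u : U, Ψ θ (QuotientGroup.mk u) = Φ θ u := by
    intro θ hθ u
    obtain ⟨v, hv⟩ := QuotientGroup.mk_out_eq_mul V u
    show Φ θ (Quotient.out (QuotientGroup.mk u : U ⧸ V)) = Φ θ u
    rw [hv, hΦV θ hθ]
  have hsΦ : ∀ θ, ∀ s u : U,
      (s : Ω ≃ₐ[k] Ω) (Φ θ u) * ((a (s : Ω ≃ₐ[k] Ω) : Ωˣ) : Ω) = Φ θ (s * u) := by
    intro θ s u
    have h1 : a ((s : Ω ≃ₐ[k] Ω) * (u : Ω ≃ₐ[k] Ω)) =
      a (s : Ω ≃ₐ[k] Ω) * (s : Ω ≃ₐ[k] Ω) • a (u : Ω ≃ₐ[k] Ω) := hcoc _ s.2 _ u.2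
    show (s : Ω ≃ₐ[k] Ω) (((a (u : Ω ≃ₐ[k] Ω) : Ωˣ) : Ω) * (u : Ω ≃ₐ[k] Ω) θ) *
        ((a (s : Ω ≃ₐ[k] Ω) : Ωˣ) : Ω) =
      ((a ((s : Ω ≃ₐ[k] Ω) * (u : Ω ≃ₐ[k] Ω)) : Ωˣ) : Ω) *
        (s : Ω ≃ₐ[k] Ω) ((u : Ω ≃ₐ[k] Ω) θ)
    rw [h1, map_mul, Units.val_mul]
    have h2 : (((s : Ω ≃ₐ[k] Ω) • a (u : Ω ≃ₐ[k] Ω) : Ωˣ) : Ω) =
      (s : Ω ≃ₐ[k] Ω) ((a (u : Ω ≃ₐ[k] Ω) : Ωˣ) : Ω) := rfl
    rw [h2]
    ring
  have hsum : ∀ θ ∈ L, ∀ s : U,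
      (s : Ω ≃ₐ[k] Ω) (∑ c, Ψ θ c) * ((a (s : Ω ≃ₐ[k] Ω) : Ωˣ) : Ω) = ∑ c, Ψ θ c := by
    intro θ hθ s
    rw [map_sum, Finset.sum_mul]
    have h1 : ∀ c : U ⧸ V,
        (s : Ω ≃ₐ[k] Ω) (Ψ θ c) * ((a (s : Ω ≃ₐ[k] Ω) : Ωˣ) : Ω) = Ψ θ (s • c) := by
      intro c
      show (s : Ω ≃ₐ[k] Ω) (Φ θ (Quotient.out c)) * _ = _
      rw [hsΦ, ← hΨ θ hθ]
      congr 1
      conv_rhs => rw [← Quotient.out_eq' c]
      rfl
    rw [Finset.sum_congr rfl (fun c _ => h1 c)]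
    exact Equiv.sum_comp (MulAction.toPerm s) (Ψ θ)
  -- nonvanishing
  have hne : ∃ θ ∈ L, ∑ c, Ψ θ c ≠ 0 := by
    by_contra hcon
    push Not at hcon
    let χ : (U ⧸ V) → (L →* Ω) := fun c =>
      ((((Quotient.out c : U) : Ω ≃ₐ[k] Ω) : Ω →ₐ[k] Ω).comp L.val : L →* Ω)
    have hχ : ∀ c (x : L), χ c x = ((Quotient.out c : U) : Ω ≃ₐ[k] Ω) (x : Ω) := fun c x => rfl
    have hinj : Function.Injective χ := by
      intro c c' hcc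
      rw [← Quotient.out_eq' c, ← Quotient.out_eq' c']
      apply QuotientGroup.eq.mpr
      show (((Quotient.out c : U)⁻¹ * (Quotient.out c' : U) : U) : Ω ≃ₐ[k] Ω) ∈ L.fixingSubgroup
      rw [IntermediateField.mem_fixingSubgroup_iff]
      intro x hx
      have h1 : ((Quotient.out c : U) : Ω ≃ₐ[k] Ω) x = ((Quotient.out c' : U) : Ω ≃ₐ[k] Ω) x := by
        have := DFunLike.congr_fun hcc ⟨x, hx⟩
        rwa [hχ, hχ] at this
      show ((Quotient.out c : U) : Ω ≃ₐ[k] Ω)⁻¹ (((Quotient.out c' : U) : Ω ≃ₐ[k] Ω) x) = x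
      rw [← h1]
      exact ((Quotient.out c : U) : Ω ≃ₐ[k] Ω).symm_apply_apply x
    have hli := (linearIndependent_monoidHom L Ω).comp χ hinj
    rw [Fintype.linearIndependent_iff] at hli
    have h0 := hli (fun c => ((a ((Quotient.out c : U) : Ω ≃ₐ[k] Ω) : Ωˣ) : Ω)) (by
      ext x
      have := hcon (x : Ω) x.2
      simpa [Ψ, Φ, hχ] using this) (QuotientGroup.mk 1)
    exact (Units.ne_zero _) h0
  obtain ⟨θ, hθ, hb⟩ := hne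
  refine ⟨Units.mk0 _ hb, fun s hs => ?_⟩
  have h1 := hsum θ hθ ⟨s, hs⟩
  rw [eq_div_iff_mul_eq']
  apply Units.ext
  rw [Units.val_mul, mul_comm]
  exact h1

/-- level Hilbert 90 for `Ω_q^×` -/
theorem E_h90 (q : Nat.Primes) (W : Subgroup (Gq q)) (hW : W ∈ (levAll.comap (rq q)).mem)
    (W₁ : Subgroup (Gq q)) (hW₁ : W₁ ∈ (levAll.comap (rq q)).mem) (hle : W₁ ≤ W)
    (f : W → Additive (Om q)ˣ) (hf : IsCocycle₁ f)
    (hc : ∀ (g s : W), (s : Gq q) ∈ W₁ → f (g * s) = f g) : IsCoboundary₁ f := by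
  classical
  have hfin := (levAll.comap (rq q)).finiteIndex W₁ hW₁
  obtain ⟨U₁, ⟨F₁, hF₁, hn₁, -, rfl⟩, rfl⟩ := hW₁
  have hfix : (locF q 1 F₁).fixingSubgroup = F₁.fixingSubgroup.comap (rq q) := by
    ext h
    rw [mem_fixingSubgroup_locF_iff, Subgroup.mem_comap]
    simp
  haveI : (locF q 1 F₁).fixingSubgroup.FiniteIndex := by rw [hfix]; exact hfin
  have hf1 : f 1 = 0 := by
    have := hf 1 1
    rw [mul_one, one_smul] at this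
    exact left_eq_add.mp this
  let a : Gq q → (Om q)ˣ := fun s => if hs : s ∈ W then Additive.toMul (f ⟨s, hs⟩) else 1
  obtain ⟨b, hb⟩ := E2_hilbert90 W (locF q 1 F₁) (by rw [hfix]; exact hle) a
    (by
      intro s hs t ht
      simp only [a, dif_pos hs, dif_pos ht, dif_pos (mul_mem hs ht)]
      have := hf ⟨s, hs⟩ ⟨t, ht⟩
      have h2 := congrArg Additive.toMul this
      rw [toMul_add, mul_comm] at h2
      exact h2)
    (by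
      intro t ht
      rw [hfix] at ht
      simp only [a, dif_pos (hle ht)]
      have := hc 1 ⟨t, hle ht⟩ ht
      rw [one_mul, hf1] at this
      rw [this]
      rfl)
  refine ⟨Additive.ofMul b⁻¹, fun g => ?_⟩
  have h1 := hb g g.2
  simp only [a, dif_pos g.2] at h1
  apply Additive.toMul.injective
  rw [h1]
  show ((g : Gq q) • b⁻¹) / b⁻¹ = b / (g : Gq q) • b
  rw [smul_inv', div_eq_mul_inv, inv_inv, div_eq_mul_inv, mul_comm]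

end

end Fermat.Agent.S55Lib
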