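import Fermat.Agent.S55.W.Arith

/-!
# S55, chapter E: every element of `Ω_q` has a number-field level (Krasner)
-/

set_option autoImplicit false
set_option linter.unusedSectionVars false
set_option linter.unusedVariables false
set_option linter.style.haveILetI false

namespace Fermat.Agent.S55Lib

noncomputable section

open groupCohomology Polynomial

lemma E1_denseRange (q : Nat.Primes) : DenseRange (algebraMap ℚ ℚ_[(q : ℕ)]) := by
  rw [Metric.denseRange_iff]
  intro x r hr
  obtain ⟨y, hy⟩ := Padic.rat_dense (q : ℕ) x hr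
  exact ⟨y, by rw [dist_eq_norm]; exact hy⟩

/-- every `x ∈ Ω_q` lies in `ℚ_q(ι β)` for some algebraic number `β` -/
theorem E1_exists_adjoin (q : Nat.Primes) (a : Om q) :
    ∃ β : Qbar, a ∈ IntermediateField.adjoin ℚ_[(q : ℕ)] {iq q β} := by
  haveI : Algebra.IsAlgebraic ℚ_[(q : ℕ)] (Om q) := PadicAlgCl.isAlgebraic (q : ℕ)
  have haint : IsIntegral ℚ_[(q : ℕ)] a := Algebra.IsIntegral.isIntegral a
  set f := minpoly ℚ_[(q : ℕ)] a with hf
  have fmon : f.Monic := minpoly.monic haint
  have fa0 : f.aeval a = 0 := minpoly.aeval _ _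
  have fnatdeg0 : f.natDegree ≠ 0 := (minpoly.natDegree_pos haint).ne'
  classical
  let S : Finset (Om q) := {x ∈ (f.rootSet (Om q)).toFinset | x ≠ a}
  let δ : ℝ := if hS : S.Nonempty then Finset.min' (S.image fun x => ‖a - x‖)
      (Finset.image_nonempty.mpr hS) else 1
  have norm_sub_le : ∀ a' : Om q, IsConjRoot ℚ_[(q : ℕ)] a a' → a ≠ a' → δ ≤ ‖a - a'‖ := by
    intro a' conj ne
    by_cases hS : S.Nonempty <;> simp only [hS, ↓reduceDIte, δ]
    · apply Finset.min'_le (S.image fun x => ‖a - x‖) (‖a - a'‖)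
      apply Finset.mem_image_of_mem
      simp only [Finset.mem_filter, Set.mem_toFinset, S]
      rw [hf, ← (isConjRoot_iff_mem_minpoly_rootSet haint)]
      exact ⟨conj, ne.symm⟩
    · simp only [ne_eq, Finset.not_nonempty_iff_eq_empty, Finset.filter_eq_empty_iff,
      Set.mem_toFinset, not_not, S] at hS
      rw [isConjRoot_iff_mem_minpoly_rootSet haint] at conj
      exact (ne (hS conj).symm).elim
  have δpos : δ > 0 := by
    by_cases hS : S.Nonempty <;> simp only [hS, ↓reduceDIte, δ]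
    · simp only [gt_iff_lt, Finset.lt_min'_iff, Finset.mem_image, forall_exists_index, and_imp,
        forall_apply_eq_imp_iff₂]
      rintro a' ha'
      simp only [Finset.mem_filter, Set.mem_toFinset, S] at ha'
      rw [norm_pos_iff, sub_ne_zero]
      exact ha'.2.symm
    · linarith
  have hε : (δ / (max ‖a‖ 1)) ^ f.natDegree / (f.natDegree + 1) > 0 := by positivity
  obtain ⟨g, gmon, gdeg, gcoeff⟩ :=
    exists_monic_and_natDegree_eq_and_norm_map_algebraMap_coeff_sub_lt (E1_denseRange q) fmon hε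
  have hsplit : ((g.map (algebraMap ℚ ℚ_[(q : ℕ)])).map (algebraMap ℚ_[(q : ℕ)] (Om q))).Splits :=
    IsAlgClosed.splits _
  let ⟨b, hb, hab⟩ := exists_aroots_norm_sub_lt_of_norm_coeff_sub_lt
      hε fa0 fmon (gmon.map _) (gdeg ▸ (g.natDegree_map _)) gcoeff hsplit
  have hab : ‖a - b‖ < δ := by
    rw [← Real.rpow_natCast, ← mul_comm_div, div_self, one_mul,
        ← Real.rpow_mul (div_pos δpos (by positivity)).le, mul_inv_cancel₀] at hab
    · simpa [mul_assoc, div_mul_cancel₀ _ (by positivity : (max ‖a‖ 1) > 0).ne'] using hab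
    · simp [fnatdeg0]
    · positivity
  -- `b` comes from `ℚ̄`
  have hbQ : ∃ β : Qbar, iq q β = b := by
    have h1 : (g.map (algebraMap ℚ ℚ_[(q : ℕ)])).map (algebraMap ℚ_[(q : ℕ)] (Om q)) =
        (g.map (algebraMap ℚ Qbar)).map (iq q).toRingHom := by
      rw [Polynomial.map_map, Polynomial.map_map]
      congr 1
      exact Subsingleton.elim _ _
    rw [Polynomial.aroots_def, h1, Splits.roots_map (IsAlgClosed.splits _),
        Multiset.mem_map] at hb
    obtain ⟨β, _, hβ⟩ := hb
    exact ⟨β, hβ⟩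
  obtain ⟨β, rfl⟩ := hbQ
  simp only [Polynomial.mem_roots', ne_eq, Polynomial.map_eq_zero, Polynomial.IsRoot.def,
    Polynomial.eval_map_algebraMap] at hb
  refine ⟨β, ?_⟩
  exact IsKrasner.krasner (minpoly.irreducible haint).separable
        (IsAlgClosed.splits _) ⟨(g.map _), gmon.map _, hb.2⟩
        fun a' h1 h2 ↦ lt_of_lt_of_le hab (norm_sub_le a' h1 h2)

/-- **(E1)** every element of `Ω_q` is fixed by `r_q⁻¹(U_F)` for some number field `F`. -/
theorem Om_smooth (q : Nat.Primes) (x : Om q) :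
    ∃ U ∈ levAll.mem, ∀ h : Gq q, rq q h ∈ U → h x = x := by
  obtain ⟨β, hβ⟩ := E1_exists_adjoin q x
  obtain ⟨F, hF, hn, hβF⟩ := exists_stableF β
  refine ⟨F.fixingSubgroup, ⟨F, hF, hn, trivial, rfl⟩, fun h hh => ?_⟩
  rw [IntermediateField.mem_fixingSubgroup_iff] at hh
  have h1 : h (iq q β) = iq q β := by
    rw [← iq_rq]
    exact congrArg (iq q) (hh β hβF)
  have h2 : IntermediateField.adjoin ℚ_[(q : ℕ)] {iq q β} ≤
      IntermediateField.fixedField (Subgroup.zpowers h) := by
    rw [IntermediateField.adjoin_le_iff]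
    intro y hy
    rw [Set.mem_singleton_iff] at hy
    subst hy
    rw [SetLike.mem_coe, IntermediateField.mem_fixedField_iff]
    intro f hf
    have h3 : h ∈ MulAction.stabilizer (Gq q) (iq q β) := h1
    exact (Subgroup.zpowers_le.2 h3) hf
  exact (IntermediateField.mem_fixedField_iff _ _).1 (h2 hβ) h (Subgroup.mem_zpowers h)

/-- all of `Ω_q^×` is smooth -/
theorem mem_WSm_Om (q : Nat.Primes) (b : Additive (Om q)ˣ) :
    b ∈ WSm (levAll.comap (rq q)) (Additive (Om q)ˣ) := by
  obtain ⟨U, hU, h⟩ := Om_smooth q ((Additive.toMul b : (Om q)ˣ) : Om q)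
  refine ⟨U.comap (rq q), ⟨U, hU, rfl⟩, fun s hs => ?_⟩
  apply congrArg Additive.ofMul (a₂ := Additive.toMul b)
  exact Units.ext (h s hs)

theorem E_Bdiv {p : ℕ} [Fact p.Prime] (q : Nat.Primes) (b : Additive (Om q)ˣ)
    (hb : b ∈ WSm (levAll.comap (rq q)) _) :
    ∃ b' ∈ WSm (levAll.comap (rq q)) (Additive (Om q)ˣ), p • b' = b := by
  have hp : 0 < p := (Fact.out : p.Prime).pos
  obtain ⟨y, hy⟩ := IsAlgClosed.exists_pow_nat_eq ((Additive.toMul b : (Om q)ˣ) : Om q) hp
  have hy0 : y ≠ 0 := by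
    rintro rfl
    rw [zero_pow hp.ne'] at hy
    exact (Units.ne_zero _) hy.symm
  exact ⟨Additive.ofMul (Units.mk0 y hy0), mem_WSm_Om q _,
    congrArg Additive.ofMul (a₂ := Additive.toMul b) (Units.ext hy)⟩

end

end Fermat.Agent.S55Lib
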